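import Fermat.Agent.S28.Transfer
import Fermat.Agent.SS.Formal.RedUp

/-!
# S44 / XD : the modular unit `XD = Δ(q) / Δ(q^p)` as a formal `q`-series over any ring

`XD R p = S28.deltaC R * V_p (S28.deltaInvC R)`; `S28.uInf R p = p^12 Δ(q^p)/Δ(q)` is `p^12 / XD`.
Everything in this file is formal.
-/

set_option autoImplicit false
set_option linter.dupNamespace false

open AlgebraicCurve ModularCurve

namespace Fermat.Agent.S44.XD

open Fermat.Agent.ES (Qb FF Vq kA resA)
open Fermat.Agent.SS (RedTo RedUp cst cstk)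
open Fermat.Agent.S28 (deltaC deltaInvC uInf V J)

noncomputable section

/-- `Δ(q) / Δ(q^p)`. -/
def XD (R : Type*) [CommRing R] (p : ℕ) [NeZero p] : LaurentSeries R :=
  deltaC R * V R p (deltaInvC R)

/-- `Δ(q^p) / Δ(q)`. -/
def XDinv (R : Type*) [CommRing R] (p : ℕ) [NeZero p] : LaurentSeries R :=
  V R p (deltaC R) * deltaInvC R

variable {R S : Type*} [CommRing R] [CommRing S] (p : ℕ) [NeZero p]

theorem coeffMap_XD (f : R →+* S) : coeffMap f (XD R p) = XD S p := by
  rw [XD, XD, map_mul, Fermat.Agent.S28.Build.coeffMap_V, Fermat.Agent.S28.Build.coeffMap_deltaC,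
    Fermat.Agent.S28.Build.coeffMap_deltaInvC]

theorem coeffMap_XDinv (f : R →+* S) : coeffMap f (XDinv R p) = XDinv S p := by
  rw [XDinv, XDinv, map_mul, Fermat.Agent.S28.Build.coeffMap_V, Fermat.Agent.S28.Build.coeffMap_deltaC,
    Fermat.Agent.S28.Build.coeffMap_deltaInvC]

theorem XD_mul_XDinv : XD R p * XDinv R p = 1 := by
  have h1 := Fermat.Agent.S28.Build.deltaC_mul_deltaInvC R
  have h2 : V R p (deltaC R) * V R p (deltaInvC R) = 1 := by rw [← map_mul, h1, map_one]
  calc XD R p * XDinv R p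
      = (deltaC R * deltaInvC R) * (V R p (deltaC R) * V R p (deltaInvC R)) := by
        rw [XD, XDinv]; ring
    _ = 1 := by rw [h1, h2, one_mul]

theorem uInf_eq : uInf R p = HahnSeries.C ((p : R) ^ 12) * XDinv R p := rfl

theorem XD_mul_uInf : XD R p * uInf R p = HahnSeries.C ((p : R) ^ 12) := by
  rw [uInf_eq, mul_left_comm, XD_mul_XDinv, mul_one]

theorem XD_ne_zero [Nontrivial R] : XD R p ≠ 0 := by
  intro h
  have := XD_mul_XDinv (R := R) p
  rw [h, zero_mul] at this
  exact zero_ne_one this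

theorem XD_inv (K : Type*) [Field K] : (XD K p)⁻¹ = XDinv K p :=
  inv_eq_of_mul_eq_one_right (XD_mul_XDinv p)

/-- `v_∞(XD) = 0`, and the reduction of `XD` is `XD`. -/
theorem redTo_XD (A : ValuationSubring Qb) : RedTo A (XD Qb p) (XD (kA A) p) := by
  refine ⟨XD A p, 1, ?_, ?_, ?_⟩
  · rw [map_one]; exact one_ne_zero
  · rw [map_one, mul_one, coeffMap_XD]
  · rw [map_one, mul_one, coeffMap_XD]

theorem redUp_XD (A : ValuationSubring Qb) : RedUp A (XD Qb p) (XD (kA A) p) :=
  ⟨1, one_ne_zero, by rw [cst, map_one, one_mul]; exact redTo_XD p A⟩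

end

end Fermat.Agent.S44.XD
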