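import Fermat.Agent.S44.XD.ModEq
import Fermat.Agent.SS.GM2.Setup

/-!
# S44 / XD / Chart : `XD` over a field `K ∋ ζ_p` of characteristic `0`, and in the abstract setting `SS.GM2.Setup`

Needed by CONST (D): `X := XD` is the auxiliary function of `Loc.XData` for the chart ring
`SM A F` = integral closure of `A[X]` in `F`, chart coordinate `X = J Y = j(q^M) j(q^(M p))` (the NON-cuspidal chart).

PROOFS.
* `exists_ringHom_of_root` : as `S28.Transfer.exists_ringHom`, with the given root `ζ` of `cyclotomic p K`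
  (`IsPrimitiveRoot.isRoot_cyclotomic`) instead of `IsAlgClosed.exists_root`.
* `exists_ext_of_root` : `exists_ext_adjoin p`, `Ext.map`; the two derivatives are `≠ 0`: `S28.derivative_ne_zero` and
  helper65's `ModEqB_deriv_ne_zero` (`XD/ModEq.lean`; both hold for EVERY `ModEqData K p`, `K` a field of char. `0`).
* `eval_mem_fullC` : as `XD.eval_mem` (`XD/Field.lean`).
* `XD_mem_fullC`, `uInf_mem_fullC` : `XD = Λ(j; j_p) / Φ'(j; j_p)`; `J K = jqModC K`, `V K p (J K)` lie in `modularFunctionFieldFullC K (M * p)`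
  (`jqModCd_mem_full K _ (h : d ∣ N)`, `qExpand_one_apply`).
* `isIntegralElem_XD`, `isIntegralElem_uInf` : `exists_monic_XD_over_J`, `exists_monic_uInf_over_J` give `(evAt (J ℤ)).IsIntegralElem _`
  (`RingHom.IsIntegralElem`: `⟨P, monic, eval₂ = 0⟩`, `Polynomial.eval_map`); push to `A` with `S28.IntTower.isIntegralElem_coeffMap` (or by hand).
* `Setup.exists_XD` : `Xf Uf` from `S.hΦF`.  `Xf * Uf = p^12`: `Φ` injective, `XD_mul_uInf`, `S.hΦA`.
  `w Xf = Uf`: as `XD.coe_isAL_XDF`: with `j₁ : F`, `Φ j₁ = J K` (`∈ F_K(M)`), `Φ (w j₁) = V K p (J K)` (`S.hwα`), `w (w j₁) = j₁`;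
  `Φ ∘ w` and `Φ` are ring homs which agree with `HahnSeries.C` on constants coming from `A`, hence from `K = Frac A`
  (`IsFractionRing`/`IsLocalization.ringHom_ext`, or clear denominators of `D.Φ`, `D.Λ` ... simplest: use that `w` fixes `algebraMap A F`, so it fixes the image of `K`);
  apply `w` to `Xf * Φ'(j₁; w j₁) = Λ(j₁; w j₁)`.
  `IntX A (Jf * Yf) Xf`: `S.intX_iff`, `GM2.isIntegralElem_evK_of_evAt`, `IntX.trans`: `XD` integral over `A[j]`, `j` integral over `A[j(q^(M p))] = A[Yf]`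
  (`S28.isIntegralElem_V_of_dvd A 1 (M * p)`, `V A 1 = id`: `qExpand_one_apply`), `Yf` integral over `A[Jf * Yf]` (`S.mutual_XY`).
  `RedK`: `g := XD A p`, `h := 1`, `coeffMap_XD`.
-/

set_option autoImplicit false
set_option linter.unusedSectionVars false

open Polynomial ModularCurve

namespace Fermat.Agent.S44.XD

open Fermat.Agent.Crux.G
open Fermat.Agent.S28 (V J evAt uInf ModEqData)
open Fermat.Agent.Crux.GM (castS)
open Fermat.Agent.SS.GM2 (Setup RedK Jh evK)

noncomputable section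

section Field

variable (K : Type) [Field K] [CharZero K] (p : ℕ) [Fact p.Prime] [NeZero p]

theorem exists_ringHom_of_root {ζ : K} (hζ : IsPrimitiveRoot ζ p) :
    Nonempty (Fermat.Agent.S28.Transfer.Oz p →+* K) := by
  have hprim := Complex.isPrimitiveRoot_exp p (NeZero.ne p)
  have hpos : 0 < p := Nat.pos_of_ne_zero (NeZero.ne p)
  have hmin : Polynomial.cyclotomic p ℤ = minpoly ℤ (Complex.exp (2 * Real.pi * Complex.I / p)) :=
    Polynomial.cyclotomic_eq_minpoly hprim hpos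
  have hr : (Polynomial.cyclotomic p K).IsRoot ζ := hζ.isRoot_cyclotomic hpos
  have hr' : (minpoly ℤ (Complex.exp (2 * Real.pi * Complex.I / p))).eval₂
      (Int.castRingHom K) ζ = 0 := by
    rw [← hmin, ← Polynomial.eval_map, Polynomial.map_cyclotomic_int]
    exact hr
  exact ⟨(AdjoinRoot.lift (Int.castRingHom K) ζ hr').comp
    (minpoly.equivAdjoin (Fermat.Agent.S28.Transfer.isIntegral_zeta p)).symm.toRingEquiv.toRingHom⟩

theorem exists_ext_of_root {ζ : K} (hζ : IsPrimitiveRoot ζ p) :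
    ∃ D : ModEqData K p, Ext D ∧
      (derivative (D.Φ.map (evAt (V K p (J K))))).eval (J K) ≠ 0 ∧
      (derivative (D.Φ.map (evAt (J K)))).eval (V K p (J K)) ≠ 0 := by
  obtain ⟨D, hD⟩ := exists_ext_adjoin p
  obtain ⟨f⟩ := exists_ringHom_of_root K p hζ
  exact ⟨D.map f, hD.map f, ModEqB_deriv_ne_zero p _,
    Fermat.Agent.S28.UnitArg.derivative_ne_zero p _⟩

variable {K}

theorem eval_mem_fullC {N : ℕ} [NeZero N] (P : Polynomial (Polynomial K)) {x y : LaurentSeries K}
    (hx : x ∈ modularFunctionFieldFullC K N) (hy : y ∈ modularFunctionFieldFullC K N) :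
    (P.map (evAt x)).eval y ∈ modularFunctionFieldFullC K N := by
  rw [Polynomial.eval_map, Polynomial.eval₂_eq_sum_range]
  refine sum_mem fun i _ => mul_mem ?_ (pow_mem hy i)
  rw [Fermat.Agent.S28.UnitArg.evAt_eq_aeval, Polynomial.aeval_eq_sum_range]
  refine sum_mem fun k _ => ?_
  rw [Algebra.smul_def]
  exact mul_mem (IntermediateField.algebraMap_mem _ _) (pow_mem hx k)

variable (M : ℕ) [NeZero M] {p}

theorem XD_mem_fullC {ζ : K} (hζ : IsPrimitiveRoot ζ p) :
    XD K p ∈ modularFunctionFieldFullC K (M * p) := by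
  obtain ⟨D, hE, h1, -⟩ := exists_ext_of_root K p hζ
  have hJ : J K ∈ modularFunctionFieldFullC K (M * p) := jqModC_mem_full K (M * p)
  have hV : V K p (J K) ∈ modularFunctionFieldFullC K (M * p) :=
    jqModCd_mem_full K (M * p) (dvd_mul_left p M)
  rw [eq_div_of_mul_eq h1 hE.hΛ']
  refine div_mem (eval_mem_fullC _ hV hJ) ?_
  rw [Polynomial.derivative_map]
  exact eval_mem_fullC _ hV hJ

theorem uInf_mem_fullC {ζ : K} (hζ : IsPrimitiveRoot ζ p) :
    uInf K p ∈ modularFunctionFieldFullC K (M * p) := by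
  obtain ⟨D, -, -, h2⟩ := exists_ext_of_root K p hζ
  have hJ : J K ∈ modularFunctionFieldFullC K (M * p) := jqModC_mem_full K (M * p)
  have hV : V K p (J K) ∈ modularFunctionFieldFullC K (M * p) :=
    jqModCd_mem_full K (M * p) (dvd_mul_left p M)
  rw [eq_div_of_mul_eq h2 D.hΛ]
  refine div_mem (eval_mem_fullC _ hJ hV) ?_
  rw [Polynomial.derivative_map]
  exact eval_mem_fullC _ hJ hV

end Field

section Int

variable (A : Type*) [CommRing A] (p : ℕ) [Fact p.Prime] [NeZero p]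

theorem isIntegralElem_XD : (evAt (J A)).IsIntegralElem (XD A p) := by
  obtain ⟨P, hP, h⟩ := exists_monic_XD_over_J p
  have h0 : (evAt (J ℤ)).IsIntegralElem (XD ℤ p) := ⟨P, hP, by rwa [Polynomial.eval_map] at h⟩
  have h1 := Fermat.Agent.S28.IntTower.isIntegralElem_coeffMap (Int.castRingHom A) h0
  rwa [Fermat.Agent.S28.Build.coeffMap_J, coeffMap_XD] at h1

theorem isIntegralElem_uInf : (evAt (J A)).IsIntegralElem (uInf A p) := by
  obtain ⟨P, hP, h⟩ := exists_monic_uInf_over_J p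
  have h0 : (evAt (J ℤ)).IsIntegralElem (uInf ℤ p) := ⟨P, hP, by rwa [Polynomial.eval_map] at h⟩
  have h1 := Fermat.Agent.S28.IntTower.isIntegralElem_coeffMap (Int.castRingHom A) h0
  rwa [Fermat.Agent.S28.Build.coeffMap_J, Fermat.Agent.S28.Build.coeffMap_uInf] at h1

end Int

section Chart

variable {M p : ℕ} [NeZero M] [NeZero p] [Fact p.Prime]
variable {A K k : Type} [CommRing A] [IsDomain A] [IsDiscreteValuationRing A] [Field K] [CharZero K]
  [Algebra A K] [IsFractionRing A K] [Field k] {r : A →+* k} {π : A}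
variable {F : Type} [Field F] [Algebra A F] {Φ : F →+* LaurentSeries K} {w : F →+* F}

theorem redK_XD : RedK r (XD K p) (XD k p) := by
  refine ⟨XD A p, 1, ?_, ?_, ?_⟩
  · rw [map_one]; exact one_ne_zero
  · rw [map_one, mul_one, coeffMap_XD]
  · rw [map_one, mul_one, coeffMap_XD]

theorem Setup.redK_uInf (S : Setup M p r π Φ w) : RedK r (uInf K p) 0 := by
  refine ⟨uInf A p, 1, ?_, ?_, ?_⟩
  · rw [map_one]; exact one_ne_zero
  · rw [map_one, mul_one, Fermat.Agent.S28.Build.coeffMap_uInf]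
  · have hp0 : (p : k) = 0 := by
      have h := S.hrℓ
      rwa [map_natCast] at h
    rw [zero_mul, Fermat.Agent.S28.Build.coeffMap_uInf, uInf_eq, hp0,
      zero_pow (by norm_num), map_zero, zero_mul]

theorem Setup.XD_mul (S : Setup M p r π Φ w) {Xf Uf : F} (hX : Φ Xf = XD K p)
    (hU : Φ Uf = uInf K p) : Xf * Uf = algebraMap A F ((p : A) ^ 12) := by
  apply Φ.injective
  have e : algebraMap A K ((p : A) ^ 12) = (p : K) ^ 12 := by rw [map_pow, map_natCast]
  rw [map_mul, hX, hU, XD_mul_uInf, S.hΦA, e]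

/-- HINT: `ζ ∈ A` (`A` is integrally closed in `K`), so there is a ring hom `Oz p →+* A` and a `D : ModEqData A p` with `Ext D`:
all polynomials have coefficients in `A`, and `Φ`, `Φ ∘ w` commute with `(P.map _).eval _` for `P : A[X][X]` by `S.hΦA`, `S.hwA`. -/
theorem Setup.w_XD (S : Setup M p r π Φ w) {ζ : K} (hζ : IsPrimitiveRoot ζ p) {Xf Uf : F}
    (hX : Φ Xf = XD K p) (hU : Φ Uf = uInf K p) : w Xf = Uf := by
  obtain ⟨D, hE, -, hne2⟩ := exists_ext_of_root K p hζ
  have hinj : Function.Injective (algebraMap A F) := by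
    intro a b hab
    have h := congrArg Φ hab
    rw [S.hΦA, S.hΦA] at h
    exact IsFractionRing.injective A K (HahnSeries.C_injective h)
  let κ : K →+* F := IsFractionRing.lift hinj
  have hκ : ∀ a, κ (algebraMap A K a) = algebraMap A F a := IsFractionRing.lift_algebraMap hinj
  have hΦκ : Φ.comp κ = (HahnSeries.C : K →+* LaurentSeries K) := by
    refine IsLocalization.ringHom_ext (nonZeroDivisors A) (RingHom.ext fun a => ?_)
    simp only [RingHom.comp_apply, hκ, S.hΦA]
  have hwκ : w.comp κ = κ := by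
    refine IsLocalization.ringHom_ext (nonZeroDivisors A) (RingHom.ext fun a => ?_)
    simp only [RingHom.comp_apply, hκ, S.hwA]
  have hΦe : ∀ x : F, Φ.comp (eval₂RingHom κ x) = evAt (Φ x) := by
    intro x
    refine Polynomial.ringHom_ext (fun a => ?_) ?_
    · simp only [RingHom.comp_apply, coe_eval₂RingHom, eval₂_C, evAt]
      exact congrArg (fun g : K →+* LaurentSeries K => g a) hΦκ
    · simp only [RingHom.comp_apply, coe_eval₂RingHom, eval₂_X, evAt]
  have hwe : ∀ x : F, w.comp (eval₂RingHom κ x) = eval₂RingHom κ (w x) := by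
    intro x
    refine Polynomial.ringHom_ext (fun a => ?_) ?_
    · simp only [RingHom.comp_apply, coe_eval₂RingHom, eval₂_C]
      exact congrArg (fun g : K →+* F => g a) hwκ
    · simp only [RingHom.comp_apply, coe_eval₂RingHom, eval₂_X]
  have hΦP : ∀ (P : Polynomial (Polynomial K)) (x y : F),
      Φ ((P.map (eval₂RingHom κ x)).eval y) = (P.map (evAt (Φ x))).eval (Φ y) := by
    intro P x y
    rw [← hΦe, ← Polynomial.map_map]
    exact (Polynomial.eval_map_apply Φ y).symm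
  have hwP : ∀ (P : Polynomial (Polynomial K)) (x y : F),
      w ((P.map (eval₂RingHom κ x)).eval y) = (P.map (eval₂RingHom κ (w x))).eval (w y) := by
    intro P x y
    rw [← hwe, ← Polynomial.map_map]
    exact (Polynomial.eval_map_apply w y).symm
  obtain ⟨j₁, hj₁⟩ := (S.hΦF (J K)).1 (jqModC_mem_full K _)
  have hwj : Φ (w j₁) = V K p (J K) := by
    rw [S.hwα j₁ (by rw [hj₁]; exact jqModC_mem_full K M), hj₁]
  have hΛ' := hE.hΛ'
  have hΛ := D.hΛ
  rw [derivative_map] at hΛ' hΛ hne2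
  have e : Xf * ((derivative D.Φ).map (eval₂RingHom κ (w j₁))).eval j₁ =
      (D.Λ.map (eval₂RingHom κ (w j₁))).eval j₁ := by
    apply Φ.injective
    rw [map_mul, hΦP, hΦP, hX, hwj, hj₁]
    exact hΛ'
  have e2 := congrArg w e
  rw [map_mul, hwP, hwP, S.hww] at e2
  have e3 := congrArg Φ e2
  rw [map_mul, hΦP, hΦP, hwj, hj₁] at e3
  apply Φ.injective
  rw [hU]
  exact mul_right_cancel₀ hne2 (e3.trans hΛ.symm)

theorem Setup.intX_of_isIntegralElem_J (S : Setup M p r π Φ w) {Jf Yf : F}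
    (hJ : Φ Jf = castS K (Jh M)) (hY : Φ Yf = castS K (Jh (M * p))) {y : LaurentSeries A}
    (hy : (evAt (J A)).IsIntegralElem y) {f : F} (hf : Φ f = coeffMap (algebraMap A K) y) :
    IntX A (Jf * Yf) f := by
  obtain ⟨j₁, hj₁⟩ := (S.hΦF (V K 1 (J K))).1 (jqModCd_mem_full K _ (one_dvd _))
  have e1 : Φ j₁ = coeffMap (algebraMap A K) (V A 1 (J A)) := by
    rw [hj₁, Fermat.Agent.S28.Build.coeffMap_V, Fermat.Agent.S28.Build.coeffMap_J]
  have e1' : Φ j₁ = coeffMap (algebraMap A K) (J A) := by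
    rw [e1]
    congr 1
    exact qExpand_one_apply _
  have e2 : Φ Yf = coeffMap (algebraMap A K) (V A (M * p) (J A)) := by
    rw [hY, ← Fermat.Agent.Crux.GM.CoordJ.castS_VJ, Fermat.Agent.Crux.GM.coeffMap_castS]
  have h1 : IntX A j₁ f := by
    rw [S.intX_iff, e1', hf]
    exact Fermat.Agent.SS.GM2.isIntegralElem_evK_of_evAt hy
  have h2 : IntX A Yf j₁ := by
    rw [S.intX_iff, e1, e2]
    exact Fermat.Agent.SS.GM2.isIntegralElem_evK_of_evAt
      (Fermat.Agent.S28.isIntegralElem_V_of_dvd A 1 (M * p) (one_dvd _)).2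
  have h3 : IntX A (Jf * Yf) Yf := (S.mutual_XY hJ hY).1
  exact Fermat.Agent.SS.GM2.IntX.trans (Fermat.Agent.SS.GM2.IntX.trans h3 h2) h1

/-- **`XD` in the abstract setting.** -/
theorem Setup.exists_XD (S : Setup M p r π Φ w) {ζ : K} (hζ : IsPrimitiveRoot ζ p) {Jf Yf : F}
    (hJ : Φ Jf = castS K (Jh M)) (hY : Φ Yf = castS K (Jh (M * p))) :
    ∃ Xf Uf : F, Φ Xf = XD K p ∧ Φ Uf = uInf K p ∧
      Xf * Uf = algebraMap A F ((p : A) ^ 12) ∧ w Xf = Uf ∧ w Uf = Xf ∧
      IntX A (Jf * Yf) Xf ∧ IntX A (Jf * Yf) Uf ∧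
      RedK r (Φ Xf) (XD k p) ∧ RedK r (Φ (w Uf)) (XD k p) ∧
      RedK r (Φ Uf) 0 ∧ RedK r (Φ (w Xf)) 0 := by
  obtain ⟨Xf, hX⟩ := (S.hΦF (XD K p)).1 (XD_mem_fullC M hζ)
  obtain ⟨Uf, hU⟩ := (S.hΦF (uInf K p)).1 (uInf_mem_fullC M hζ)
  have hw : w Xf = Uf := Setup.w_XD S hζ hX hU
  have hw' : w Uf = Xf := by rw [← hw, S.hww]
  refine ⟨Xf, Uf, hX, hU, Setup.XD_mul S hX hU, hw, hw',
    Setup.intX_of_isIntegralElem_J S hJ hY (isIntegralElem_XD A p) (by rw [hX, coeffMap_XD]),
    Setup.intX_of_isIntegralElem_J S hJ hY (isIntegralElem_uInf A p)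
      (by rw [hU, Fermat.Agent.S28.Build.coeffMap_uInf]), ?_, ?_, ?_, ?_⟩
  · rw [hX]; exact redK_XD
  · rw [hw', hX]; exact redK_XD
  · rw [hU]; exact Setup.redK_uInf S
  · rw [hw, hU]; exact Setup.redK_uInf S

end Chart

end

end Fermat.Agent.S44.XD
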