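import Fermat.Agent.S44.XD.ModEq
import Fermat.Agent.S37.Mod.Inst
import Fermat.Agent.Crux.LevelDescent

/-!
# S44 / XD / Field : `XD ∈ FF (M p)`, and `w(XD) = p^12 / XD` for the Atkin-Lehner involution `w = w_p`

PROOFS (everything from `exists_ext_deriv_ne_zero Qb p`; write `j = J Qb`, `j_p = V Qb p j`).
* `J_mem` : as in `S37.Mod.isI_j` (`S17.IsFFAux.laurentBaseChange_eq_fullC`, `jqModC_mem_full`).
* `VJ_mem` : `j_p = heckeBetaBar Qb M p (jQ M)` (`coe_heckeBetaBar`).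
* `eval_mem` : as `S28.UnitArg.eval_map_evAt_mem`.
* `XD_mem` : `XD * Φ'(j; j_p) = Λ(j; j_p)`, `Φ'(j; j_p) ≠ 0`: `XD = Λ(j; j_p) / Φ'(j; j_p)`.
* `uInf_mem` : `uInf = C (p^12) * XD⁻¹` (`XD_mul_uInf`), or `D.hΛ`.
* `map_eval` : an algebra endomorphism `w` of `FF N` commutes with `(P.map (evAt x)).eval y`
  (`Polynomial.eval_map`, `eval₂_eq_sum_range`, `evAt_eq_aeval`/`aeval_eq_sum_range`; `HahnSeries.C c = algebraMap`).
* `coe_isAL_XDF` : `w j = j_p`, `w j_p = j` (`IsAL.alpha`, `IsAL.beta` at `jQ M`; `coe_heckeAlphaBar`).  Apply `w` to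
  `XD * Φ'(j; j_p) = Λ(j; j_p)`: `w(XD) * Φ'(j_p; j) = Λ(j_p; j) = uInf * Φ'(j_p; j)` (`D.hΛ`); cancel.
-/

set_option autoImplicit false

open AlgebraicCurve ModularCurve Polynomial

namespace Fermat.Agent.S44.XD

open Fermat.Agent.ES (Qb FF kA)
open Fermat.Agent.SS (IsAL RedTo cst)
open Fermat.Agent.S28 (deltaC deltaInvC uInf V J evAt ModEqData)

noncomputable section

theorem J_mem (N : ℕ) [NeZero N] : J Qb ∈ modularFunctionFieldBar N := by
  have h : modularFunctionFieldBar N = modularFunctionFieldFullC Qb N :=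
    Fermat.Agent.S17.IsFFAux.laurentBaseChange_eq_fullC _ N
  rw [h]
  exact jqModC_mem_full Qb N

/-- `j ∈ FF N`. -/
def jQ (N : ℕ) [NeZero N] : FF N := ⟨J Qb, J_mem N⟩

variable (M p : ℕ) [NeZero M] [NeZero p]

theorem VJ_mem : V Qb p (J Qb) ∈ modularFunctionFieldBar (M * p) :=
  (heckeBetaBar Qb M p (jQ M)).2

/-- `j_p ∈ FF (M p)`. -/
def jpQ : FF (M * p) := ⟨V Qb p (J Qb), VJ_mem M p⟩

/-- `val ∘ aeval x = evAt x`. -/
theorem FieldA_val_comp_aeval {N : ℕ} [NeZero N] (x : FF N) :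
    ((modularFunctionFieldBar N).val : FF N →+* LaurentSeries Qb).comp
      ((aeval x : Polynomial Qb →ₐ[Qb] FF N) : Polynomial Qb →+* FF N)
      = evAt (x : LaurentSeries Qb) := by
  apply Polynomial.ringHom_ext
  · intro a
    simp only [RingHom.comp_apply, RingHom.coe_coe, aeval_C, evAt, coe_eval₂RingHom, eval₂_C,
      AlgHom.commutes]
    rw [algebraMap_laurentSeries_eq_single]
    rfl
  · simp only [RingHom.comp_apply, RingHom.coe_coe, aeval_X, evAt, coe_eval₂RingHom, eval₂_X,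
      IntermediateField.coe_val]

/-- `(P.map (evAt x)).eval y`, computed inside `FF N`. -/
theorem FieldA_coe_eval {N : ℕ} [NeZero N] (P : Polynomial (Polynomial Qb)) (x y : FF N) :
    (((P.map ((aeval x : Polynomial Qb →ₐ[Qb] FF N) : Polynomial Qb →+* FF N)).eval y : FF N) :
      LaurentSeries Qb) = (P.map (evAt (x : LaurentSeries Qb))).eval (y : LaurentSeries Qb) := by
  rw [← FieldA_val_comp_aeval, ← Polynomial.map_map]
  exact (Polynomial.eval_map_apply
    ((modularFunctionFieldBar N).val : FF N →+* LaurentSeries Qb) y).symm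

theorem eval_mem {N : ℕ} [NeZero N] (P : Polynomial (Polynomial Qb)) {x y : LaurentSeries Qb}
    (hx : x ∈ modularFunctionFieldBar N) (hy : y ∈ modularFunctionFieldBar N) :
    (P.map (evAt x)).eval y ∈ modularFunctionFieldBar N := by
  have h := FieldA_coe_eval P (⟨x, hx⟩ : FF N) ⟨y, hy⟩
  rw [← h]
  exact Subtype.property _

theorem map_eval {N : ℕ} [NeZero N] (w : FF N →ₐ[Qb] FF N) (P : Polynomial (Polynomial Qb))
    (x y : FF N) (h : (P.map (evAt (x : LaurentSeries Qb))).eval (y : LaurentSeries Qb)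
      ∈ modularFunctionFieldBar N) :
    ((w ⟨_, h⟩ : FF N) : LaurentSeries Qb)
      = (P.map (evAt ((w x : FF N) : LaurentSeries Qb))).eval ((w y : FF N) : LaurentSeries Qb) := by
  have e : (⟨_, h⟩ : FF N)
      = (P.map ((aeval x : Polynomial Qb →ₐ[Qb] FF N) : Polynomial Qb →+* FF N)).eval y :=
    Subtype.ext (FieldA_coe_eval P x y).symm
  have hc : (w : FF N →+* FF N).comp
      ((aeval x : Polynomial Qb →ₐ[Qb] FF N) : Polynomial Qb →+* FF N)
      = ((aeval (w x) : Polynomial Qb →ₐ[Qb] FF N) : Polynomial Qb →+* FF N) := by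
    rw [Polynomial.aeval_algHom]
    rfl
  rw [e, ← FieldA_coe_eval, ← hc, ← Polynomial.map_map]
  exact congrArg Subtype.val (Polynomial.eval_map_apply (w : FF N →+* FF N) y).symm

variable [Fact p.Prime]

theorem XD_mem : XD Qb p ∈ modularFunctionFieldBar (M * p) := by
  obtain ⟨D, hE, h1, -⟩ := exists_ext_deriv_ne_zero Qb p
  rw [eq_div_of_mul_eq h1 hE.hΛ']
  refine div_mem (eval_mem _ (VJ_mem M p) (J_mem _)) ?_
  rw [Polynomial.derivative_map]
  exact eval_mem _ (VJ_mem M p) (J_mem _)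

theorem uInf_mem : uInf Qb p ∈ modularFunctionFieldBar (M * p) := by
  obtain ⟨D, -, -, h2⟩ := exists_ext_deriv_ne_zero Qb p
  rw [eq_div_of_mul_eq h2 D.hΛ]
  refine div_mem (eval_mem _ (J_mem _) (VJ_mem M p)) ?_
  rw [Polynomial.derivative_map]
  exact eval_mem _ (J_mem _) (VJ_mem M p)

/-- `XD` as an element of the function field of `X₀(M p)`. -/
def XDF : FF (M * p) := ⟨XD Qb p, XD_mem M p⟩

theorem XDF_ne_zero : XDF M p ≠ 0 := fun h => XD_ne_zero (R := Qb) p (congrArg Subtype.val h)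

variable {M p}

theorem Field_C_eq_cst (c : Qb) : (HahnSeries.C c : LaurentSeries Qb) = cst c := by
  rw [cst, algebraMap_laurentSeries_eq_single]
  rfl

/-- **`w(XD) = p^12 Δ(q^p)/Δ(q)`.** -/
theorem coe_isAL_XDF {w : FF (M * p) →ₐ[Qb] FF (M * p)} (hw : IsAL M p w) :
    ((w (XDF M p) : FF (M * p)) : LaurentSeries Qb) = uInf Qb p := by
  obtain ⟨D, hE, -, hne2⟩ := exists_ext_deriv_ne_zero Qb p
  have hj : heckeAlphaBar Qb M p (jQ M) = jQ (M * p) := Subtype.ext (coe_heckeAlphaBar M p _)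
  have hjp : heckeBetaBar Qb M p (jQ M) = jpQ M p := Subtype.ext (coe_heckeBetaBar M p _)
  have hwj : w (jQ (M * p)) = jpQ M p := by rw [← hj, hw.alpha, hjp]
  have hwjp : w (jpQ M p) = jQ (M * p) := by rw [← hjp, hw.beta, hj]
  have hΛ' := hE.hΛ'
  have hΛ := D.hΛ
  rw [derivative_map] at hΛ' hΛ hne2
  have ha := eval_mem (N := M * p) (derivative D.Φ) (VJ_mem M p) (J_mem (M * p))
  have hb := eval_mem (N := M * p) D.Λ (VJ_mem M p) (J_mem (M * p))
  have e : XDF M p * ⟨_, ha⟩ = ⟨_, hb⟩ := Subtype.ext hΛ'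
  have e2 : ((w (XDF M p) : FF (M * p)) : LaurentSeries Qb) *
      ((w ⟨_, ha⟩ : FF (M * p)) : LaurentSeries Qb) = ((w ⟨_, hb⟩ : FF (M * p)) : LaurentSeries Qb) := by
    rw [← e, map_mul]
    rfl
  have ea := map_eval w _ (jpQ M p) (jQ (M * p)) ha
  have eb := map_eval w _ (jpQ M p) (jQ (M * p)) hb
  rw [hwj, hwjp] at ea eb
  have e3 : ((w (XDF M p) : FF (M * p)) : LaurentSeries Qb) *
      eval (V Qb p (J Qb)) (map (evAt (J Qb)) (derivative D.Φ)) =
        eval (V Qb p (J Qb)) (map (evAt (J Qb)) D.Λ) :=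
    (congrArg (fun z => ((w (XDF M p) : FF (M * p)) : LaurentSeries Qb) * z) ea.symm).trans
      (e2.trans eb)
  exact mul_right_cancel₀ hne2 (e3.trans hΛ.symm)

/-- **`XD * w(XD) = p^12`.** -/
theorem XDF_mul_isAL {w : FF (M * p) →ₐ[Qb] FF (M * p)} (hw : IsAL M p w) :
    XDF M p * w (XDF M p) = algebraMap Qb (FF (M * p)) ((p : Qb) ^ 12) := by
  apply Subtype.ext
  have h1 : ((XDF M p * w (XDF M p) : FF (M * p)) : LaurentSeries Qb) =
      XD Qb p * ((w (XDF M p) : FF (M * p)) : LaurentSeries Qb) := rfl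
  rw [h1, coe_isAL_XDF hw, XD_mul_uInf, Field_C_eq_cst]
  rfl

/-- `v_0(XD) = 12 v(p)`: `p^(-12) w(XD)` reduces to `XD̄⁻¹`. -/
theorem redTo_isAL_XDF {w : FF (M * p) →ₐ[Qb] FF (M * p)} (hw : IsAL M p w)
    (A : ValuationSubring Qb) :
    RedTo A (cst ((p : Qb) ^ 12)⁻¹ * ((w (XDF M p) : FF (M * p)) : LaurentSeries Qb))
      (XDinv (kA A) p) := by
  have hp0 : ((p : Qb) ^ 12) ≠ 0 := pow_ne_zero _ (Nat.cast_ne_zero.2 (NeZero.ne p))
  have e : cst ((p : Qb) ^ 12)⁻¹ * ((w (XDF M p) : FF (M * p)) : LaurentSeries Qb) =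
      XDinv Qb p := by
    have h1 : (HahnSeries.C ((p : Qb) ^ 12) : LaurentSeries Qb) = cst ((p : Qb) ^ 12) :=
      Field_C_eq_cst _
    rw [coe_isAL_XDF hw, uInf_eq, h1, ← mul_assoc, cst, cst, ← map_mul, inv_mul_cancel₀ hp0,
      map_one, one_mul]
  rw [e]
  refine ⟨XDinv A p, 1, ?_, ?_, ?_⟩
  · rw [map_one]; exact one_ne_zero
  · rw [map_one, mul_one, coeffMap_XDinv]
  · rw [map_one, mul_one, coeffMap_XDinv]

end

end Fermat.Agent.S44.XD
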