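import Fermat.Agent.S44.XD.Defs
import Fermat.Agent.S44.Eis.Red
import Fermat.Agent.S28.BuildData

/-!
# S44 / XD / Hecke : `heckeSer ℓ XD = XD ^ (ℓ + 1)`  (`ℓ ≠ p` primes), over `ℚ̄`

NO infinite products: we reuse `S28/BuildData.lean`.

* `prod_uF_const` : copy of the first half of the proof of `S28.Build.kappa` (with `p := ℓ`):
  `∏ g, uF ℂ ℓ ζ g ∈ PC ℓ` (`coeff_prod_mem_of_psum`, `psum_mem`), `= evAt (V J) W`, `prod_uF_mem_F` and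
  `natDegree_eq_zero_of_mem_F` give `W` constant; `≠ 0` by `uF_ne_zero`.
* `heckeSer_deltaC_complex` :  `∏ g, uF g = C (ℓ^12) * V V Δ * (∏_{b < ℓ} scale (ζ^b) Δ) * (V Δ⁻¹)^(ℓ+1)` (`Fintype.prod_option`),
  `scale = twist` (`ext`; same coefficients), `∏_{b : Fin ℓ} twist (ζ^b) x = twistProd ℓ x` (bijection `b ↦ ζ^b` onto
  `rootsOfUnity ℓ ℂ`: `IsPrimitiveRoot.zmodEquivZPowers`/`IsPrimitiveRoot.card_rootsOfUnity` + injectivity `IsPrimitiveRoot.pow_inj`),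
  `V (heckeSer ℓ Δ) = V V Δ * twistProd ℓ Δ` (`ES.Vq_normSer`).  So `V (heckeSer ℓ Δ * (Δ⁻¹)^(ℓ+1)) = C (c / ℓ^12) = V (C _)`,
  `Vq_injective`.
* `heckeSer_deltaC` : choose `ι : Qb →+* ℂ` (`IsAlgClosed.lift`, or `(algebraMap ..)`), `coeffMap ι` is injective
  (`S28.Build.coeffMap_injective`), commutes with `heckeSer` (`ES.coeffMap_heckeSer`, bijectivity on `μ_ℓ`: injective + same
  cardinality `ℓ`), `coeffMap_deltaC`.  `W := heckeSer ℓ Δ * (Δ⁻¹)^(ℓ+1)` over `Qb` has `coeffMap ι W = C c`, so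
  `W.coeff n = 0` for `n ≠ 0`, i.e. `W = cst (W.coeff 0)`.
* `heckeSer_Vq` : `twist z (V_p x) = V_p (twist (z^p) x)` (coefficients), `z ↦ z^p` is a bijection of `rootsOfUnity ℓ K`
  (`ℓ`, `p` coprime: `rootsOfUnity` has exponent `ℓ`; `powCoprime` or `Nat.Coprime`-inverse), so
  `twistProd ℓ (V_p x) = V_p (twistProd ℓ x)`; `contract ℓ (V_p y) = V_p (contract ℓ y)` (coefficients: `p ∣ ℓ n ↔ p ∣ n`);
  `V_ℓ V_p = V_p V_ℓ` (`qExpand_qExpand`, `mul_comm`, `qExpand_congr`).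
* `heckeSer_XD` : `XD = Δ * (V_p Δ)⁻¹`; `ES.heckeSer_mul`, `Eis.heckeSer_inv`; the constant cancels (`Vq_cst`).
-/

set_option autoImplicit false

open AlgebraicCurve ModularCurve

namespace Fermat.Agent.S44.XD

open Fermat.Agent.ES (Qb FF heckeSer Vq twist twistProd normSer contract)
open Fermat.Agent.SS (cst)
open Fermat.Agent.S28 (deltaC deltaInvC uInf V J)

noncomputable section

theorem prod_uF_const (ℓ : ℕ) [NeZero ℓ] (hℓ : ℓ.Prime) (ζ : ℂˣ) (hζ : IsPrimitiveRoot ζ ℓ) :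
    ∃ c : ℂ, c ≠ 0 ∧ ∏ g, Fermat.Agent.S28.Build.uF ℂ ℓ ζ g = HahnSeries.C c := by
  have h0 := Fermat.Agent.S28.coeff_prod_mem_of_psum (Fermat.Agent.S28.Build.PC ℓ)
    (Fermat.Agent.S28.Build.uF ℂ ℓ ζ)
    (fun a => by simpa using Fermat.Agent.S28.Build.psum_mem ℓ ζ hℓ hζ a 0) 0
  rw [Polynomial.coeff_zero_eq_eval_zero, Polynomial.eval_prod] at h0
  simp only [Polynomial.eval_sub, Polynomial.eval_X, Polynomial.eval_C, zero_sub] at h0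
  rw [Finset.prod_neg (s := Finset.univ) (Fermat.Agent.S28.Build.uF ℂ ℓ ζ)] at h0
  have h1 : ∏ g, Fermat.Agent.S28.Build.uF ℂ ℓ ζ g ∈ Fermat.Agent.S28.Build.PC ℓ := by
    have := mul_mem (pow_mem (neg_mem (one_mem (Fermat.Agent.S28.Build.PC ℓ)))
      (Finset.univ : Finset (Option (Fin ℓ))).card) h0
    have h2 : (-1 : LaurentSeries ℂ) ^ (Finset.univ : Finset (Option (Fin ℓ))).card *
        ((-1) ^ (Finset.univ : Finset (Option (Fin ℓ))).card *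
          ∏ x, Fermat.Agent.S28.Build.uF ℂ ℓ ζ x) =
        ∏ x, Fermat.Agent.S28.Build.uF ℂ ℓ ζ x := by
      have h11 : (-1 : LaurentSeries ℂ) * -1 = 1 := by ring
      rw [← mul_assoc, ← mul_pow, h11, one_pow, one_mul]
    rwa [h2] at this
  obtain ⟨W, hW⟩ := Fermat.Agent.S28.Build.mem_PC.mp h1
  have hdeg : W.natDegree = 0 := Fermat.Agent.S28.Build.natDegree_eq_zero_of_mem_F ℓ W (by
    rw [hW]; exact Fermat.Agent.S28.Build.prod_uF_mem_F ℂ ℓ ζ)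
  rw [Polynomial.eq_C_of_natDegree_eq_zero hdeg, Fermat.Agent.S28.Build.evAt_C] at hW
  have hne : ∏ g, Fermat.Agent.S28.Build.uF ℂ ℓ ζ g ≠ 0 :=
    Finset.prod_ne_zero_iff.mpr fun g _ => Fermat.Agent.S28.Build.uF_ne_zero ℓ ζ g
  refine ⟨W.coeff 0, ?_, hW.symm⟩
  intro h
  rw [h, map_zero] at hW
  exact hne hW.symm

theorem scale_eq_twist {R : Type*} [CommRing R] (c : Rˣ) (x : LaurentSeries R) :
    Fermat.Agent.S28.scale c x = twist c x := by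
  ext n
  rfl

theorem prod_twist_pow_eq_twistProd {K : Type*} [Field K] (ℓ : ℕ) [NeZero ℓ] (ζ : Kˣ)
    (hζ : IsPrimitiveRoot ζ ℓ) (x : LaurentSeries K) :
    ∏ b : Fin ℓ, twist (ζ ^ (b : ℕ)) x = twistProd ℓ x := by
  unfold Fermat.Agent.ES.twistProd
  have hmem : ∀ b : Fin ℓ, ζ ^ (b : ℕ) ∈ rootsOfUnity ℓ K := by
    intro b
    rw [mem_rootsOfUnity, ← pow_mul, mul_comm, pow_mul, hζ.pow_eq_one, one_pow]
  refine Fintype.prod_bijective (fun b : Fin ℓ => (⟨ζ ^ (b : ℕ), hmem b⟩ : rootsOfUnity ℓ K)) ?_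
    _ _ (fun b => rfl)
  rw [Fintype.bijective_iff_injective_and_card]
  refine ⟨?_, ?_⟩
  · intro b b' hbb'
    have h1 : ζ ^ (b : ℕ) = ζ ^ (b' : ℕ) := congrArg Subtype.val hbb'
    exact Fin.ext (hζ.pow_inj b.2 b'.2 h1)
  · rw [Fintype.card_fin, ← Nat.card_eq_fintype_card,
      (IsPrimitiveRoot.coe_units_iff.2 hζ).card_rootsOfUnity]

theorem heckeSer_deltaC_complex (ℓ : ℕ) [NeZero ℓ] (hℓ : ℓ.Prime) :
    ∃ c : ℂ, c ≠ 0 ∧ heckeSer ℓ (deltaC ℂ) = HahnSeries.C c * deltaC ℂ ^ (ℓ + 1) := by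
  have hz := Complex.isPrimitiveRoot_exp ℓ (NeZero.ne ℓ)
  obtain ⟨ζ, hζeq⟩ := hz.isUnit (NeZero.ne ℓ)
  have hζ : IsPrimitiveRoot ζ ℓ := IsPrimitiveRoot.coe_units_iff.1 (by rw [hζeq]; exact hz)
  have hζ' : IsPrimitiveRoot (ζ : ℂ) ℓ := IsPrimitiveRoot.coe_units_iff.2 hζ
  obtain ⟨c, hc, hprod⟩ := prod_uF_const ℓ hℓ ζ hζ
  have hℓ12 : ((ℓ : ℂ) ^ 12) ≠ 0 := pow_ne_zero 12 (by exact_mod_cast NeZero.ne ℓ)
  have e1 : ∏ b : Fin ℓ, Fermat.Agent.S28.Build.uF ℂ ℓ ζ (some b)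
      = Vq ℂ ℓ (normSer ℓ (deltaC ℂ)) * Vq ℂ ℓ (deltaInvC ℂ) ^ ℓ := by
    have : ∀ b : Fin ℓ, Fermat.Agent.S28.Build.uF ℂ ℓ ζ (some b)
        = twist (ζ ^ (b : ℕ)) (deltaC ℂ) * Vq ℂ ℓ (deltaInvC ℂ) := by
      intro b
      rw [← scale_eq_twist]
      rfl
    rw [Finset.prod_congr rfl fun b _ => this b, Finset.prod_mul_distrib,
      prod_twist_pow_eq_twistProd ℓ ζ hζ, Finset.prod_const, Finset.card_univ, Fintype.card_fin,
      Fermat.Agent.ES.Vq_normSer ℓ hζ']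
  have e0 : Fermat.Agent.S28.Build.uF ℂ ℓ ζ none
      = HahnSeries.C ((ℓ : ℂ) ^ 12) * Vq ℂ ℓ (Vq ℂ ℓ (deltaC ℂ)) * Vq ℂ ℓ (deltaInvC ℂ) := rfl
  rw [Fintype.prod_option, e0, e1] at hprod
  have e2 : Vq ℂ ℓ (heckeSer ℓ (deltaC ℂ) * deltaInvC ℂ ^ (ℓ + 1))
      = Vq ℂ ℓ (HahnSeries.C (c / (ℓ : ℂ) ^ 12)) := by
    have e3 : (HahnSeries.C ((ℓ : ℂ) ^ 12) : LaurentSeries ℂ) * HahnSeries.C (c / (ℓ : ℂ) ^ 12)
        = HahnSeries.C c := by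
      rw [← map_mul, mul_div_cancel₀ _ hℓ12]
    have hC0 : (HahnSeries.C ((ℓ : ℂ) ^ 12) : LaurentSeries ℂ) ≠ 0 := by
      intro h
      exact hℓ12 (HahnSeries.C_injective (by rw [h, map_zero]))
    apply mul_left_cancel₀ hC0
    rw [qExpand_C, e3, ← hprod]
    unfold Fermat.Agent.ES.heckeSer
    rw [map_mul (Vq ℂ ℓ), map_mul (Vq ℂ ℓ), map_pow (Vq ℂ ℓ), pow_succ]
    ring
  have e4 := Fermat.Agent.ES.Vq_injective ℓ e2
  refine ⟨c / (ℓ : ℂ) ^ 12, div_ne_zero hc hℓ12, ?_⟩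
  rw [← e4, mul_assoc, ← mul_pow, mul_comm (deltaInvC ℂ), Fermat.Agent.S28.Build.deltaC_mul_deltaInvC,
    one_pow, mul_one]

theorem Hecke_bijective_restrict (ι : Qb →+* ℂ) (ℓ : ℕ) [NeZero ℓ] :
    Function.Bijective (restrictRootsOfUnity ι ℓ) := by
  have hinj : Function.Injective (restrictRootsOfUnity ι ℓ) := by
    intro a b hab
    have h1 := congrArg (fun z : rootsOfUnity ℓ ℂ => ((z : ℂˣ) : ℂ)) hab
    simp only [restrictRootsOfUnity_coe_apply] at h1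
    exact Subtype.ext (Units.ext (ι.injective h1))
  refine (Nat.bijective_iff_injective_and_card _).mpr ⟨hinj, ?_⟩
  rw [HasEnoughRootsOfUnity.natCard_rootsOfUnity Qb ℓ,
    HasEnoughRootsOfUnity.natCard_rootsOfUnity ℂ ℓ]

theorem heckeSer_deltaC (ℓ : ℕ) [NeZero ℓ] (hℓ : ℓ.Prime) :
    ∃ c : Qb, c ≠ 0 ∧ heckeSer ℓ (deltaC Qb) = cst c * deltaC Qb ^ (ℓ + 1) := by
  obtain ⟨c, hc, h⟩ := heckeSer_deltaC_complex ℓ hℓ
  have halg : Algebra.IsAlgebraic ℚ Qb := AlgebraicClosure.isAlgebraic ℚ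
  let ι : Qb →+* ℂ := ((IsAlgClosed.lift : Qb →ₐ[ℚ] ℂ) : Qb →+* ℂ)
  have hinj : Function.Injective (coeffMap ι) :=
    Fermat.Agent.S28.Build.coeffMap_injective ι ι.injective
  have hΔ := Fermat.Agent.S28.Build.deltaC_mul_deltaInvC Qb
  have hΔC := Fermat.Agent.S28.Build.deltaC_mul_deltaInvC ℂ
  obtain ⟨W, hWdef⟩ : ∃ W : LaurentSeries Qb, W = heckeSer ℓ (deltaC Qb) * deltaInvC Qb ^ (ℓ + 1) :=
    ⟨_, rfl⟩
  have hW : coeffMap ι W = HahnSeries.C c := by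
    rw [hWdef, map_mul, map_pow,
      Fermat.Agent.ES.coeffMap_heckeSer ι ℓ (Hecke_bijective_restrict ι ℓ),
      Fermat.Agent.S28.Build.coeffMap_deltaC, Fermat.Agent.S28.Build.coeffMap_deltaInvC, h,
      mul_assoc, ← mul_pow, hΔC, one_pow, mul_one]
  have hc0 : ι (W.coeff 0) = c := by
    have := congrArg (fun z => z.coeff 0) hW
    simpa using this
  have hW0 : W = cst (W.coeff 0) := by
    apply hinj
    rw [hW, cst, algebraMap_laurentSeries_eq_single, coeffMap_single, hc0, HahnSeries.C_apply]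
  refine ⟨W.coeff 0, ?_, ?_⟩
  · intro h0
    rw [h0, map_zero] at hc0
    exact hc hc0.symm
  · rw [← hW0, hWdef, mul_assoc, ← mul_pow, mul_comm (deltaInvC Qb), hΔ, one_pow, mul_one]

theorem Hecke_twist_Vq {K : Type*} [Field K] (p : ℕ) [NeZero p] (z : Kˣ) (x : LaurentSeries K) :
    twist z (Vq K p x) = Vq K p (twist (z ^ p) x) := by
  ext n
  rw [Fermat.Agent.ES.twist_coeff]
  by_cases hn : (p : ℤ) ∣ n
  · obtain ⟨m, rfl⟩ := hn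
    rw [qExpand_coeff_mul, qExpand_coeff_mul, Fermat.Agent.ES.twist_coeff, zpow_mul, zpow_natCast]
  · rw [qExpand_coeff_of_not_dvd p _ hn, qExpand_coeff_of_not_dvd p _ hn, mul_zero]

theorem Hecke_pow_bijective {K : Type*} [Field K] (ℓ p : ℕ) [NeZero ℓ] (h : ℓ.Coprime p) :
    Function.Bijective (fun z : rootsOfUnity ℓ K => z ^ p) := by
  refine Finite.injective_iff_bijective.mp ?_
  intro z w hzw
  have hzw' : z ^ p = w ^ p := hzw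
  have h1 : (z * w⁻¹) ^ p = 1 := by rw [mul_pow, inv_pow, hzw', mul_inv_cancel]
  have h2 : (z * w⁻¹) ^ ℓ = 1 := by
    apply Subtype.ext
    exact (mem_rootsOfUnity _ _).mp (z * w⁻¹).2
  have h3 := pow_gcd_eq_one.mpr ⟨h2, h1⟩
  rw [Nat.Coprime.gcd_eq_one h, pow_one] at h3
  exact mul_inv_eq_one.mp h3

theorem Hecke_twistProd_Vq {K : Type*} [Field K] (ℓ p : ℕ) [NeZero ℓ] [NeZero p] (h : ℓ.Coprime p)
    (x : LaurentSeries K) : twistProd ℓ (Vq K p x) = Vq K p (twistProd ℓ x) := by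
  unfold twistProd
  rw [map_prod]
  simp only [Hecke_twist_Vq]
  exact Fintype.prod_bijective _ (Hecke_pow_bijective (K := K) ℓ p h) _ _ (fun z => rfl)

theorem Hecke_contract_Vq {K : Type*} [Field K] (ℓ p : ℕ) [NeZero ℓ] [NeZero p] (h : ℓ.Coprime p)
    (y : LaurentSeries K) : contract ℓ (Vq K p y) = Vq K p (contract ℓ y) := by
  ext n
  rw [Fermat.Agent.ES.contract_coeff]
  by_cases hn : (p : ℤ) ∣ n
  · obtain ⟨m, rfl⟩ := hn
    rw [qExpand_coeff_mul, Fermat.Agent.ES.contract_coeff, mul_left_comm, qExpand_coeff_mul]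
  · rw [qExpand_coeff_of_not_dvd p _ hn, qExpand_coeff_of_not_dvd p]
    intro hd
    have hcop : IsCoprime (p : ℤ) (ℓ : ℤ) := Nat.isCoprime_iff_coprime.mpr h.symm
    exact hn (hcop.dvd_of_dvd_mul_left hd)

theorem heckeSer_Vq {K : Type*} [Field K] (ℓ p : ℕ) [NeZero ℓ] [NeZero p] (h : ℓ.Coprime p)
    (x : LaurentSeries K) : heckeSer ℓ (Vq K p x) = Vq K p (heckeSer ℓ x) := by
  have hne : NeZero (ℓ * p) := ⟨mul_ne_zero (NeZero.ne ℓ) (NeZero.ne p)⟩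
  have hne' : NeZero (p * ℓ) := ⟨mul_ne_zero (NeZero.ne p) (NeZero.ne ℓ)⟩
  rw [heckeSer, heckeSer, map_mul, normSer, normSer, Hecke_twistProd_Vq ℓ p h,
    Hecke_contract_Vq ℓ p h, qExpand_qExpand, qExpand_qExpand, qExpand_congr (mul_comm ℓ p)]

/-- **`T_ℓ XD = (ℓ + 1) XD`** (multiplicatively). -/
theorem heckeSer_XD (ℓ p : ℕ) [NeZero ℓ] [NeZero p] (hℓ : ℓ.Prime) (hp : p.Prime) (hℓp : ℓ ≠ p) :
    heckeSer ℓ (XD Qb p) = XD Qb p ^ (ℓ + 1) := by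
  obtain ⟨ζ, hζ⟩ := Fermat.Agent.ES.exists_primitiveRoot_Qb ℓ
  obtain ⟨c, hc, h⟩ := heckeSer_deltaC ℓ hℓ
  have hcop : ℓ.Coprime p := (Nat.coprime_primes hℓ hp).mpr hℓp
  have hΔ := Fermat.Agent.S28.Build.deltaC_mul_deltaInvC Qb
  have h1 : heckeSer ℓ (deltaC Qb) * heckeSer ℓ (deltaInvC Qb) = 1 := by
    rw [← Fermat.Agent.ES.heckeSer_mul ℓ hζ, hΔ, Fermat.Agent.ES.heckeSer_one]
  have hcc : cst c * cst c⁻¹ = 1 := by
    rw [cst, cst, ← map_mul, mul_inv_cancel₀ hc, map_one]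
  have h2 : heckeSer ℓ (deltaInvC Qb) = cst c⁻¹ * deltaInvC Qb ^ (ℓ + 1) := by
    have h3 : heckeSer ℓ (deltaC Qb) * (cst c⁻¹ * deltaInvC Qb ^ (ℓ + 1)) = 1 := by
      rw [h]
      calc cst c * deltaC Qb ^ (ℓ + 1) * (cst c⁻¹ * deltaInvC Qb ^ (ℓ + 1))
          = (cst c * cst c⁻¹) * (deltaC Qb * deltaInvC Qb) ^ (ℓ + 1) := by rw [mul_pow]; ring
        _ = 1 := by rw [hcc, hΔ, one_pow, one_mul]
    calc heckeSer ℓ (deltaInvC Qb)
        = (heckeSer ℓ (deltaC Qb) * (cst c⁻¹ * deltaInvC Qb ^ (ℓ + 1)))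
            * heckeSer ℓ (deltaInvC Qb) := by rw [h3, one_mul]
      _ = (heckeSer ℓ (deltaC Qb) * heckeSer ℓ (deltaInvC Qb))
            * (cst c⁻¹ * deltaInvC Qb ^ (ℓ + 1)) := by ring
      _ = cst c⁻¹ * deltaInvC Qb ^ (ℓ + 1) := by rw [h1, one_mul]
  have h4 : heckeSer ℓ (V Qb p (deltaInvC Qb))
      = cst c⁻¹ * V Qb p (deltaInvC Qb) ^ (ℓ + 1) := by
    have := heckeSer_Vq (K := Qb) ℓ p hcop (deltaInvC Qb)
    rw [this, h2, map_mul, map_pow, Fermat.Agent.SS.Vq_cst]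
  rw [XD, Fermat.Agent.ES.heckeSer_mul ℓ hζ, h, h4, mul_pow]
  calc cst c * deltaC Qb ^ (ℓ + 1) * (cst c⁻¹ * V Qb p (deltaInvC Qb) ^ (ℓ + 1))
      = (cst c * cst c⁻¹) * (deltaC Qb ^ (ℓ + 1) * V Qb p (deltaInvC Qb) ^ (ℓ + 1)) := by ring
    _ = deltaC Qb ^ (ℓ + 1) * V Qb p (deltaInvC Qb) ^ (ℓ + 1) := by rw [hcc, one_mul]

end

end Fermat.Agent.S44.XD
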