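import Fermat.Agent.S44.XD.Defs
import Fermat.Agent.S28.UnitArg

/-!
# S44 / XD / ModEq : the modular equation package of `S28`, extended by the conjugate `XD`

`S28.ModEqData A p` records `Φ Ψ Λ ∈ A[Y][X]` with (`j = J A`, `j_p = V_p j`, `u = uInf = p^12/XD`)
  `Ψ(u; j) = 0`, `u * Φ'(j_p; j) = Λ(j_p; j)`.
In the construction (`S28/Family.lean`, `S28/BuildData.lean`; variable `t`, `q = t^p`) one has
  `Φ.map (evAt (V J)) = PhiL = ∏_g (X - jF g)`, `Ψ.map (evAt (V J)) = PsiL = ∏_g (X - uF g)`,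
  `Λ.map (evAt (V J)) = LamL = ∑_g uF g ∏_{m ≠ g} (X - jF m)`,
and `jF (some 0) = scale 1 J = J`, `uF (some 0) = scale 1 Δ * V Δ⁻¹ = XD`.  So the SAME polynomials satisfy
  `Ψ(XD; j_p) = 0`, `XD * Φ'(j; j_p) = Λ(j; j_p)`, `Φ(j; j_p) = 0`.

PROOFS.
* `exists_ext_of_injective` : copy the proof of `S28.exists_modEqData_of_injective` (30 lines), keep the three
  equations `hΦ hΨ hΛ` (`_ .map (evAt (V A p (J A))) = PhiL/PsiL/LamL`), and evaluate at `jF (some 0)`,
  `uF (some 0)` as in `S28.Build.PsiL_eval`, `S28.Build.LamL_eval` (with `some ⟨0, _⟩` instead of `none`).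
* `Ext.map` : as `S28.ModEqData.map` (`Transfer.coeffMap_eval_map`, `coeffMap_XD`).
* `exists_ext` : `S28.Transfer.exists_ringHom`.
* `Ext.deriv_ne_zero` : `PhiL' (J) = ∏_{m ≠ some 0} (J - jF m)`; `J ≠ V V J` (orders `-1`, `-p^2`) and
  `J ≠ scale (ζ^b) J` for `0 < b < p` (coefficient of `q^(-1)`: `ζ^(-b) ≠ 1`; this needs `ζ` primitive: it is NOT
  recorded in `ModEqData`, so either add `IsPrimitiveRoot D.ζ p` to `Ext`, which is available in the construction and
  preserved by `Oz p → K` when `(p : K) ≠ 0`, or argue as in `S28.derivative_ne_zero`, `S28/UnitArg.lean`).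
-/

set_option autoImplicit false

open AlgebraicCurve ModularCurve Polynomial

namespace Fermat.Agent.S44.XD

open Fermat.Agent.S28 (deltaC deltaInvC uInf V J evAt ModEqData)

noncomputable section

/-- The additional relations satisfied by the conjugate `XD` of `u`. -/
structure Ext {A : Type*} [CommRing A] {p : ℕ} [NeZero p] (D : ModEqData A p) : Prop where
  hΦ' : ((D.Φ.map (evAt (V A p (J A)))).eval (J A)) = 0
  hΨ' : ((D.Ψ.map (evAt (V A p (J A)))).eval (XD A p)) = 0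
  hΛ' : XD A p * (derivative (D.Φ.map (evAt (V A p (J A))))).eval (J A) =
    (D.Λ.map (evAt (V A p (J A)))).eval (J A)

theorem ModEq_jF_zero (A : Type*) [CommRing A] (p : ℕ) [NeZero p] (ζ : Aˣ) :
    Fermat.Agent.S28.Build.jF A p ζ (some 0) = J A := by
  simp [Fermat.Agent.S28.Build.jF]

theorem ModEq_uF_zero (A : Type*) [CommRing A] (p : ℕ) [NeZero p] (ζ : Aˣ) :
    Fermat.Agent.S28.Build.uF A p ζ (some 0) = XD A p := by
  simp [Fermat.Agent.S28.Build.uF, Fermat.Agent.S28.Build.dF, XD]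

theorem ModEq_PhiL_eval (A : Type*) [CommRing A] (p : ℕ) [NeZero p] (ζ : Aˣ) :
    (Fermat.Agent.S28.Build.PhiL A p ζ).eval (J A) = 0 := by
  rw [Fermat.Agent.S28.Build.PhiL, Polynomial.eval_prod]
  refine Finset.prod_eq_zero (Finset.mem_univ (some 0)) ?_
  rw [ModEq_jF_zero]; simp

theorem ModEq_PsiL_eval (A : Type*) [CommRing A] (p : ℕ) [NeZero p] (ζ : Aˣ) :
    (Fermat.Agent.S28.Build.PsiL A p ζ).eval (XD A p) = 0 := by
  rw [Fermat.Agent.S28.Build.PsiL, Polynomial.eval_prod]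
  refine Finset.prod_eq_zero (Finset.mem_univ (some 0)) ?_
  rw [ModEq_uF_zero]; simp

theorem ModEq_LamL_eval (A : Type*) [CommRing A] (p : ℕ) [NeZero p] (ζ : Aˣ) :
    (Fermat.Agent.S28.Build.LamL A p ζ).eval (J A) =
      XD A p * (derivative (Fermat.Agent.S28.Build.PhiL A p ζ)).eval (J A) := by
  rw [Fermat.Agent.S28.Build.LamL, Fermat.Agent.S28.Build.PhiL, Polynomial.derivative_prod_finset,
    Polynomial.eval_finsetSum, Polynomial.eval_finsetSum, Finset.sum_eq_single (some 0),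
    Finset.sum_eq_single (some 0)]
  · simp [ModEq_uF_zero]
  · intro g _ hg
    rw [Polynomial.eval_mul, Polynomial.eval_prod,
      Finset.prod_eq_zero (Finset.mem_erase.mpr ⟨hg.symm, Finset.mem_univ (some 0)⟩), zero_mul]
    rw [ModEq_jF_zero]; simp
  · intro h; exact absurd (Finset.mem_univ _) h
  · intro g _ hg
    rw [Polynomial.eval_mul, Polynomial.eval_prod,
      Finset.prod_eq_zero (Finset.mem_erase.mpr ⟨hg.symm, Finset.mem_univ (some 0)⟩), mul_zero]
    rw [ModEq_jF_zero]; simp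
  · intro h; exact absurd (Finset.mem_univ _) h

open Fermat.Agent.S28 Fermat.Agent.S28.Build in
theorem exists_ext_of_injective {A : Type*} [CommRing A] (ι : A →+* ℂ)
    (hι : Function.Injective ι) (p : ℕ) [NeZero p] (hp : p.Prime) (ζ : Aˣ)
    (hζ : IsPrimitiveRoot (Units.map (ι : A →* ℂ) ζ) p) : ∃ D : ModEqData A p, Ext D := by
  obtain ⟨h1, h2, h3⟩ := coeffs_mem p _ hp hζ
  have key : ∀ (G : Polynomial (LaurentSeries A)) (G' : Polynomial (LaurentSeries ℂ)),
      G.map (coeffMap ι) = G' → (∀ k, G'.coeff k ∈ PC p) →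
      G ∈ Polynomial.lifts (evAt (V A p (J A))) := by
    intro G G' hG hG'
    rw [Polynomial.lifts_iff_coeff_lifts]
    intro n
    refine mem_range_evAt_of_coeffMap ι hι p _ ?_
    rw [← Polynomial.coeff_map, hG]
    exact hG' n
  obtain ⟨Φ, hΦ, -, hΦm⟩ := Polynomial.lifts_and_natDegree_eq_and_monic
    (key _ _ (map_PhiL ι p ζ) h2) (PhiL_monic A p ζ)
  obtain ⟨Ψ, hΨ, -, hΨm⟩ := Polynomial.lifts_and_natDegree_eq_and_monic
    (key _ _ (map_PsiL ι p ζ) h1) (PsiL_monic A p ζ)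
  obtain ⟨Λ, hΛ⟩ := (Polynomial.mem_lifts _).mp (key _ _ (map_LamL ι p ζ) h3)
  have hmap : ∀ G : Polynomial (Polynomial A),
      (G.map (evAt (J A))).map (V A p) = G.map (evAt (V A p (J A))) := by
    intro G
    rw [Polynomial.map_map, V_comp_evAt]
  refine ⟨⟨ζ, Φ, Ψ, Λ, ?_, hΦm, hΨm, ?_, ?_⟩, ⟨?_, ?_, ?_⟩⟩
  · rw [hΦ, PhiL_eq]
  · apply qExpand_injective p
    rw [map_zero, ← Polynomial.eval_map_apply, hmap, hΨ, PsiL_eval]
  · apply qExpand_injective p
    rw [map_mul, ← Polynomial.eval_map_apply, ← Polynomial.eval_map_apply,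
      ← Polynomial.derivative_map, hmap, hmap, hΦ, hΛ, LamL_eval]
  · show (Φ.map (evAt (V A p (J A)))).eval (J A) = 0
    rw [hΦ, ModEq_PhiL_eval]
  · show (Ψ.map (evAt (V A p (J A)))).eval (XD A p) = 0
    rw [hΨ, ModEq_PsiL_eval]
  · show XD A p * (derivative (Φ.map (evAt (V A p (J A))))).eval (J A) =
      (Λ.map (evAt (V A p (J A)))).eval (J A)
    rw [hΦ, hΛ, ModEq_LamL_eval]

theorem Ext.map {A B : Type*} [CommRing A] [CommRing B] (f : A →+* B) {p : ℕ} [NeZero p]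
    {D : ModEqData A p} (h : Ext D) : Ext (D.map f) := by
  refine ⟨?_, ?_, ?_⟩
  · have h' := congrArg (coeffMap f) h.hΦ'
    rw [Fermat.Agent.S28.Transfer.coeffMap_eval_map, Fermat.Agent.S28.Build.coeffMap_V,
      Fermat.Agent.S28.Build.coeffMap_J, map_zero] at h'
    exact h'
  · have h' := congrArg (coeffMap f) h.hΨ'
    rw [Fermat.Agent.S28.Transfer.coeffMap_eval_map, Fermat.Agent.S28.Build.coeffMap_V,
      Fermat.Agent.S28.Build.coeffMap_J, coeffMap_XD, map_zero] at h'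
    exact h'
  · have h' := congrArg (coeffMap f) h.hΛ'
    rw [map_mul, Polynomial.derivative_map, Fermat.Agent.S28.Transfer.coeffMap_eval_map,
      Fermat.Agent.S28.Transfer.coeffMap_eval_map, Fermat.Agent.S28.Build.coeffMap_V,
      Fermat.Agent.S28.Build.coeffMap_J, coeffMap_XD, ← Polynomial.derivative_map,
      ← Polynomial.derivative_map] at h'
    exact h'

theorem exists_ext_adjoin (p : ℕ) [Fact p.Prime] [NeZero p] :
    ∃ D : ModEqData (Fermat.Agent.S28.Transfer.Oz p) p, Ext D := by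
  set z : ℂ := Complex.exp (2 * Real.pi * Complex.I / p) with hz
  have hprim : IsPrimitiveRoot z p := Complex.isPrimitiveRoot_exp p (NeZero.ne p)
  let zA : ↥(Algebra.adjoin ℤ {z}) := ⟨z, Algebra.subset_adjoin (Set.mem_singleton z)⟩
  have hpow : zA ^ p = 1 := Subtype.ext (by simpa using hprim.pow_eq_one)
  have hu : IsUnit zA := IsUnit.of_pow_eq_one hpow (NeZero.ne p)
  refine exists_ext_of_injective (Algebra.adjoin ℤ {z}).val.toRingHom
    Subtype.val_injective p (Fact.out) hu.unit ?_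
  rw [← IsPrimitiveRoot.coe_units_iff]
  exact hprim

theorem exists_ext (K : Type) [Field K] [IsAlgClosed K] (p : ℕ) [Fact p.Prime] [NeZero p] :
    ∃ D : ModEqData K p, Ext D := by
  obtain ⟨D, hD⟩ := exists_ext_adjoin p
  obtain ⟨f⟩ := Fermat.Agent.S28.Transfer.exists_ringHom K p
  exact ⟨D.map f, hD.map f⟩

/-- (ModEqB) `-1` is not divisible by `p`. -/
theorem ModEqB_not_dvd (p : ℕ) [Fact p.Prime] : ¬ (p : ℤ) ∣ -1 := by
  intro hd
  have h2 : (p : ℤ) ∣ 1 := by simpa using hd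
  have h3 : p ∣ 1 := by exact_mod_cast h2
  exact (Fact.out : p.Prime).one_lt.ne' (Nat.dvd_one.mp h3)

/-- (ModEqB) the sum of the `ζ^{-b}` vanishes: the coefficient of `X^p` of `Φ(X; j_p)` is a series in `q^p`. -/
theorem ModEqB_sum_eq_zero {K : Type} [Field K] (p : ℕ) [Fact p.Prime] [NeZero p]
    (D : ModEqData K p) : ∑ b ∈ Finset.range p, (((D.ζ ^ b) ^ (-1 : ℤ) : Kˣ) : K) = 0 := by
  have h1 : (D.Φ.map (evAt (V K p (J K)))).nextCoeff =
      -(V K p (V K p (J K))) + -∑ b ∈ Finset.range p, Fermat.Agent.S28.scale (D.ζ ^ b) (J K) := by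
    rw [D.hΦ, Monic.nextCoeff_mul (monic_X_sub_C _) (monic_prod_X_sub_C _ _), nextCoeff_X_sub_C,
      prod_X_sub_C_nextCoeff]
  obtain ⟨W, hW⟩ : ∃ W : K[X], (D.Φ.map (evAt (V K p (J K)))).nextCoeff = evAt (V K p (J K)) W := by
    rw [nextCoeff]
    split_ifs
    · exact ⟨0, (map_zero _).symm⟩
    · exact ⟨_, coeff_map _ _⟩
  have hW' : evAt (V K p (J K)) W = V K p (evAt (J K) W) := by
    rw [← Fermat.Agent.S28.UnitArg.V_comp_evAt, RingHom.comp_apply]
  have h2 := congrArg (fun z => z.coeff (-1 : ℤ)) (h1.symm.trans (hW.trans hW'))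
  simp only [HahnSeries.coeff_add, HahnSeries.coeff_neg, HahnSeries.coeff_sum,
    Fermat.Agent.S28.scale_coeff] at h2
  rw [qExpand_coeff_of_not_dvd _ _ (ModEqB_not_dvd p), qExpand_coeff_of_not_dvd _ _ (ModEqB_not_dvd p),
    neg_zero, zero_add, neg_eq_zero] at h2
  rw [← h2]
  refine Finset.sum_congr rfl fun b _ => ?_
  rw [coeff_jqModC_neg_one, mul_one]

/-- (ModEqB) in characteristic `0` the unit `ζ` of a `ModEqData` is a primitive `p`-th root of unity: `ζ^{-b} ≠ 1` for `0 < b < p`. -/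
theorem ModEqB_zeta_pow_ne_one {K : Type} [Field K] [CharZero K] (p : ℕ) [Fact p.Prime] [NeZero p]
    (D : ModEqData K p) {b : ℕ} (hb0 : b ≠ 0) (hbp : b < p) :
    (((D.ζ ^ b) ^ (-1 : ℤ) : Kˣ) : K) ≠ 1 := by
  have hp : p.Prime := Fact.out
  have hsum : ∑ b ∈ Finset.range p, ((D.ζ⁻¹ : Kˣ) : K) ^ b = 0 := by
    rw [← ModEqB_sum_eq_zero p D]
    refine Finset.sum_congr rfl fun b _ => ?_
    rw [zpow_neg_one, ← inv_pow, Units.val_pow_eq_pow_val]
  have hwp : (D.ζ⁻¹ : Kˣ) ^ p = 1 := by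
    apply Units.ext
    have h := geom_sum_mul ((D.ζ⁻¹ : Kˣ) : K) p
    rw [hsum, zero_mul] at h
    rw [Units.val_pow_eq_pow_val, Units.val_one]
    exact (sub_eq_zero.1 h.symm)
  have hw1 : (D.ζ⁻¹ : Kˣ) ≠ 1 := by
    intro h
    rw [h] at hsum
    simp only [Units.val_one, one_pow, Finset.sum_const, Finset.card_range, nsmul_eq_mul,
      mul_one] at hsum
    exact hp.ne_zero (Nat.cast_eq_zero.1 hsum)
  intro h
  apply hw1
  have hwb : (D.ζ⁻¹ : Kˣ) ^ b = 1 := by
    apply Units.ext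
    rw [Units.val_one, ← h, zpow_neg_one, ← inv_pow]
  have hg := pow_gcd_eq_one.2 ⟨hwb, hwp⟩
  have hcop : Nat.gcd b p = 1 :=
    Nat.Coprime.symm ((Nat.Prime.coprime_iff_not_dvd hp).2 fun hd =>
      absurd (Nat.le_of_dvd (Nat.pos_of_ne_zero hb0) hd) (not_le.2 hbp))
  rwa [hcop, pow_one] at hg

/-- (ModEqB) `Φ'(j; j_p) ≠ 0` in characteristic `0`, for every `ModEqData`. -/
theorem ModEqB_deriv_ne_zero {K : Type} [Field K] [CharZero K] (p : ℕ) [Fact p.Prime] [NeZero p]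
    (D : ModEqData K p) : (derivative (D.Φ.map (evAt (V K p (J K))))).eval (J K) ≠ 0 := by
  have hp : p.Prime := Fact.out
  rw [D.hΦ, ← Finset.mul_prod_erase (Finset.range p) _ (Finset.mem_range.2 hp.pos)]
  simp only [pow_zero, Fermat.Agent.S28.scale_one, derivative_mul, derivative_sub, derivative_X,
    derivative_C, sub_zero, one_mul, eval_add, eval_mul, eval_sub, eval_X, eval_C, sub_self,
    zero_mul, add_zero, zero_add, eval_prod]
  refine mul_ne_zero ?_ (Finset.prod_ne_zero_iff.2 fun b hb => ?_)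
  · intro h
    have hc := congrArg (fun z => z.coeff (-1 : ℤ)) h
    simp only [HahnSeries.coeff_sub, HahnSeries.coeff_zero] at hc
    rw [qExpand_coeff_of_not_dvd _ _ (ModEqB_not_dvd p), coeff_jqModC_neg_one, sub_zero] at hc
    exact one_ne_zero hc
  · intro h
    have hc := congrArg (fun z => z.coeff (-1 : ℤ)) h
    simp only [HahnSeries.coeff_sub, HahnSeries.coeff_zero, Fermat.Agent.S28.scale_coeff] at hc
    rw [coeff_jqModC_neg_one, mul_one] at hc
    exact ModEqB_zeta_pow_ne_one p D (Finset.ne_of_mem_erase hb)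
      (Finset.mem_range.1 (Finset.mem_of_mem_erase hb)) (sub_eq_zero.1 hc).symm

/-- `Φ'(j; j_p) ≠ 0` in characteristic `0`. -/
theorem exists_ext_deriv_ne_zero (K : Type) [Field K] [IsAlgClosed K] [CharZero K] (p : ℕ)
    [Fact p.Prime] [NeZero p] :
    ∃ D : ModEqData K p, Ext D ∧
      (derivative (D.Φ.map (evAt (V K p (J K))))).eval (J K) ≠ 0 ∧
      (derivative (D.Φ.map (evAt (J K)))).eval (V K p (J K)) ≠ 0 := by
  obtain ⟨D, hD⟩ := exists_ext K p
  exact ⟨D, hD, ModEqB_deriv_ne_zero p D, Fermat.Agent.S28.UnitArg.derivative_ne_zero p D⟩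

/-- **`XD` is integral over `ℤ[j_p]`.** (`hΨ'` over `Oz p` + `S28.Transfer.exists_monic_descent`.) -/
theorem exists_monic_XD_over_VJ (p : ℕ) [Fact p.Prime] [NeZero p] :
    ∃ P : Polynomial (Polynomial ℤ), P.Monic ∧ (P.map (evAt (V ℤ p (J ℤ)))).eval (XD ℤ p) = 0 := by
  obtain ⟨D, hD⟩ := exists_ext_adjoin p
  refine Fermat.Agent.S28.Transfer.exists_monic_descent p _ _ D.Ψ D.hΨmonic ?_
  rw [Fermat.Agent.S28.Build.coeffMap_V, Fermat.Agent.S28.Build.coeffMap_J, coeffMap_XD]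
  exact hD.hΨ'

/-- **`p^12 / XD` is integral over `ℤ[j]`.** (`D.hΨ` over `Oz p` + `S28.Transfer.exists_monic_descent`.) -/
theorem exists_monic_uInf_over_J (p : ℕ) [Fact p.Prime] [NeZero p] :
    ∃ P : Polynomial (Polynomial ℤ), P.Monic ∧ (P.map (evAt (J ℤ))).eval (uInf ℤ p) = 0 := by
  obtain ⟨D, -⟩ := exists_ext_adjoin p
  refine Fermat.Agent.S28.Transfer.exists_monic_descent p _ _ D.Ψ D.hΨmonic ?_
  rw [Fermat.Agent.S28.Build.coeffMap_J, Fermat.Agent.S28.Build.coeffMap_uInf]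
  exact D.hΨ

/-- **`XD` is integral over `ℤ[j]`.** (`exists_monic_XD_over_VJ`, `S28.exists_monic_VJ_over_J`, transitivity of
integrality: make `LaurentSeries ℤ` a `ℤ[X]`-algebra via `evAt (J ℤ)` as in the proof of `exists_monic_descent`.) -/
theorem exists_monic_XD_over_J (p : ℕ) [Fact p.Prime] [NeZero p] :
    ∃ P : Polynomial (Polynomial ℤ), P.Monic ∧ (P.map (evAt (J ℤ))).eval (XD ℤ p) = 0 := by
  obtain ⟨Q, hQ, hQe⟩ := exists_monic_XD_over_VJ p
  obtain ⟨P₁, hP₁, hP₁e⟩ := Fermat.Agent.S28.exists_monic_VJ_over_J p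
  let _ : Algebra (Polynomial ℤ) (LaurentSeries ℤ) := (evAt (J ℤ)).toAlgebra
  have halg : algebraMap (Polynomial ℤ) (LaurentSeries ℤ) = evAt (J ℤ) := rfl
  have hV : IsIntegral (Polynomial ℤ) (V ℤ p (J ℤ)) :=
    ⟨P₁, hP₁, by rw [halg, ← Polynomial.eval_map]; exact hP₁e⟩
  have hC : ∀ a : ℤ, IsIntegral (Polynomial ℤ) (HahnSeries.C a : LaurentSeries ℤ) := by
    intro a
    have h0 : (HahnSeries.C a : LaurentSeries ℤ) =
        algebraMap (Polynomial ℤ) (LaurentSeries ℤ) (Polynomial.C a) := by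
      rw [halg, Fermat.Agent.S28.Build.evAt_C]
    rw [h0]
    exact isIntegral_algebraMap
  have h1 : ∀ Q' : Polynomial ℤ, IsIntegral (Polynomial ℤ) (evAt (V ℤ p (J ℤ)) Q') := by
    intro Q'
    rw [Fermat.Agent.S28.Build.evAt_apply, Polynomial.eval₂_eq_sum_range]
    exact IsIntegral.sum _ fun i _ => (hC _).mul (hV.pow i)
  have hX : IsIntegral (Polynomial ℤ) (XD ℤ p) := by
    refine IsIntegral.of_aeval_monic_of_isIntegral_coeff (p := Q.map (evAt (V ℤ p (J ℤ))))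
      (hQ.map _) ?_ (by rw [hQe]; exact isIntegral_zero)
      (fun i => by rw [Polynomial.coeff_map]; exact h1 _)
    intro hdeg
    have h2 : Q.map (evAt (V ℤ p (J ℤ))) = 1 := (hQ.map _).natDegree_eq_zero.mp hdeg
    rw [h2, Polynomial.eval_one] at hQe
    exact one_ne_zero hQe
  obtain ⟨P, hP, hPe⟩ := hX
  exact ⟨P, hP, by rw [Polynomial.eval_map]; exact hPe⟩

end

end Fermat.Agent.S44.XD
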